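import Fermat.Agent.H21.Coh.Cycle

/-!
# Transfers commute with compatible automorphisms
-/

set_option autoImplicit false

namespace Fermat.Agent.H21

open Finset

namespace Rewriting

variable {G Γ X : Type*} [Group G] [Group Γ] {ι : Γ →* G} {α : X → G}
variable {A : Type*} [AddCommGroup A]

/-- If `J : Γ →* Γ` is induced by conjugation with `ε : G` and conjugation by `ε` permutes the
cosets `ι Γ * α x`, then the transfer commutes with composition by `J`. -/
theorem transfer_comp_hom [Fintype X] (h : Rewriting ι α) (J : Γ →* Γ) (ε : G)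
    (hJ : ∀ γ, ι (J γ) = ε * ι γ * ε⁻¹)
    (π : Equiv.Perm X) (t : X → Γ) (hπ : ∀ x, ε * α x * ε⁻¹ = ι (t x) * α (π x))
    (φ : Additive Γ →+ A) :
    h.transfer A (φ.comp (MonoidHom.toAdditive J))
      = (h.transfer A φ).comp (MonoidHom.toAdditive J) := by
  ext γ'
  obtain ⟨γ, rfl⟩ : ∃ γ : Γ, Additive.ofMul γ = γ' := ⟨Additive.toMul γ', rfl⟩
  have key : ∀ x, α (π x) * ι (J γ)
      = ι ((t x)⁻¹ * J (h.kap γ x) * t (h.tgt γ x)) * α (π (h.tgt γ x)) := by
    intro x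
    have h1 : α (π x) = (ι (t x))⁻¹ * (ε * α x * ε⁻¹) := by
      rw [hπ x, ← mul_assoc, inv_mul_cancel, one_mul]
    have h2 : ε * α (h.tgt γ x) * ε⁻¹ = ι (t (h.tgt γ x)) * α (π (h.tgt γ x)) := hπ _
    calc α (π x) * ι (J γ)
        = (ι (t x))⁻¹ * (ε * (α x * ι γ) * ε⁻¹) := by
          rw [h1, hJ]; group
      _ = (ι (t x))⁻¹ * (ε * (ι (h.kap γ x) * α (h.tgt γ x)) * ε⁻¹) := by rw [h.spec γ x]
      _ = (ι (t x))⁻¹ * (ε * ι (h.kap γ x) * ε⁻¹) * (ε * α (h.tgt γ x) * ε⁻¹) := by group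
      _ = ι ((t x)⁻¹ * J (h.kap γ x) * t (h.tgt γ x)) * α (π (h.tgt γ x)) := by
          rw [h2, ← hJ, map_mul, map_mul, map_inv]
          simp only [mul_assoc]
  have hk : ∀ x, h.kap (J γ) (π x) = (t x)⁻¹ * J (h.kap γ x) * t (h.tgt γ x) :=
    fun x => h.kap_eq (key x)
  show h.transfer A (φ.comp (MonoidHom.toAdditive J)) (Additive.ofMul γ)
    = h.transfer A φ (Additive.ofMul (J γ))
  have h3 : ∑ x, φ (Additive.ofMul (t (h.tgt γ x))) = ∑ x, φ (Additive.ofMul (t x)) :=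
    Equiv.sum_comp (h.perm γ) (fun y => φ (Additive.ofMul (t y)))
  have h4 : ∑ x, φ (Additive.ofMul (h.kap (J γ) x))
      = ∑ x, φ (Additive.ofMul (h.kap (J γ) (π x))) :=
    (Equiv.sum_comp π (fun y => φ (Additive.ofMul (h.kap (J γ) y)))).symm
  rw [transfer_apply, transfer_apply, h4]
  simp only [hk, ofMul_mul, ofMul_inv, map_add, map_neg, sum_add_distrib, sum_neg_distrib, h3]
  simp only [AddMonoidHom.coe_comp, Function.comp_apply, MonoidHom.toAdditive_apply_apply,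
    toMul_ofMul]
  abel

end Rewriting

end Fermat.Agent.H21
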