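import Fermat.Agent.H21.Coh.Trace
import Fermat.Agent.H21.Coh.Conj

/-!
# The cohomological Hecke operators `cohT`, `cohU`

* `cohT N ℓ hℓ hℓN A`, `cohU N q hqN A` : endomorphisms of `Additive (Gamma0 N) →+ A`;
* apply formulas for arbitrary rewritings, naturality in `A`;
* they preserve `IsParabolicHom` and the condition "kills elements of finite order"
  (for arbitrary coefficients, including torsion ones).
-/

set_option autoImplicit false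

open CongruenceSubgroup Matrix.SpecialLinearGroup
open scoped MatrixGroups OnePoint
open P2MW.S_ModularForm_heckeT_slash_eq_self_of_mem_Gamma0.ModularForm.HeckeSlashInvariance
open ModularCurve.Period

namespace Fermat.Agent.H21

section defs

variable (N : ℕ)

/-- The cohomological Hecke operator `T_ℓ` (`ℓ ∤ N`) on `Hom(Γ₀(N), A)`. -/
noncomputable def cohT (ℓ : ℕ) (hℓ : ℓ.Prime) (hℓN : ¬ ℓ ∣ N) (A : Type*) [AddCommGroup A] :
    (Additive (Gamma0 N) →+ A) →+ (Additive (Gamma0 N) →+ A) :=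
  haveI : Fact ℓ.Prime := ⟨hℓ⟩
  haveI : NeZero ℓ := ⟨hℓ.ne_zero⟩
  (rewritingT N ℓ hℓN).transfer A

/-- The cohomological Hecke operator `U_q` (`q ∣ N`) on `Hom(Γ₀(N), A)`. -/
noncomputable def cohU [NeZero N] (q : ℕ) (hqN : q ∣ N) (A : Type*) [AddCommGroup A] :
    (Additive (Gamma0 N) →+ A) →+ (Additive (Gamma0 N) →+ A) :=
  haveI : NeZero q := ⟨fun h => NeZero.ne N (Nat.eq_zero_of_zero_dvd (h ▸ hqN))⟩
  (rewritingU N q hqN).transfer A

end defs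

section basic

variable {N : ℕ} {A B : Type*} [AddCommGroup A] [AddCommGroup B]

theorem cohT_eq_transfer {ℓ : ℕ} [Fact ℓ.Prime] (hℓ : ℓ.Prime) (hℓN : ¬ ℓ ∣ N) :
    cohT N ℓ hℓ hℓN A = (rewritingT N ℓ hℓN).transfer A := rfl

theorem cohU_eq_transfer [NeZero N] {q : ℕ} [NeZero q] (hqN : q ∣ N) :
    cohU N q hqN A = (rewritingU N q hqN).transfer A := rfl

/-- Apply formula for `cohT`, for an arbitrary rewriting of `γ`. -/
theorem cohT_apply_of_rewriting {ℓ : ℕ} [Fact ℓ.Prime] (hℓ : ℓ.Prime) (hℓN : ¬ ℓ ∣ N)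
    (φ : Additive (Gamma0 N) →+ A) (γ : Gamma0 N)
    (σ : OnePoint (ZMod ℓ) → OnePoint (ZMod ℓ)) (κ : OnePoint (ZMod ℓ) → Gamma0 N)
    (e : ∀ x, heckeRep ℓ x * mapGL ℝ (γ : SL(2, ℤ))
      = mapGL ℝ (κ x : SL(2, ℤ)) * heckeRep ℓ (σ x)) :
    cohT N ℓ hℓ hℓN A φ (Additive.ofMul γ) = ∑ x, φ (Additive.ofMul (κ x)) :=
  (rewritingT N ℓ hℓN).transfer_apply_of_rewriting φ γ σ κ e

/-- Existence form of the apply formula for `cohT`. -/
theorem cohT_apply_exists {ℓ : ℕ} [Fact ℓ.Prime] (hℓ : ℓ.Prime) (hℓN : ¬ ℓ ∣ N)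
    (γ : Gamma0 N) :
    ∃ (σ : Equiv.Perm (OnePoint (ZMod ℓ))) (κ : OnePoint (ZMod ℓ) → Gamma0 N),
      (∀ x, heckeRep ℓ x * mapGL ℝ (γ : SL(2, ℤ))
        = mapGL ℝ (κ x : SL(2, ℤ)) * heckeRep ℓ (σ x)) ∧
      ∀ (A : Type*) [AddCommGroup A] (φ : Additive (Gamma0 N) →+ A),
        cohT N ℓ hℓ hℓN A φ (Additive.ofMul γ) = ∑ x, φ (Additive.ofMul (κ x)) :=
  ⟨(rewritingT N ℓ hℓN).perm γ, (rewritingT N ℓ hℓN).kap γ,
    fun x => (rewritingT N ℓ hℓN).spec γ x, fun _ _ _ => rfl⟩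

/-- Apply formula for `cohU`, for an arbitrary rewriting of `γ`. -/
theorem cohU_apply_of_rewriting [NeZero N] {q : ℕ} [NeZero q] (hqN : q ∣ N)
    (φ : Additive (Gamma0 N) →+ A) (γ : Gamma0 N)
    (σ : ZMod q → ZMod q) (κ : ZMod q → Gamma0 N)
    (e : ∀ x : ZMod q, ModularForm.heckeMatrix q x.val * mapGL ℝ (γ : SL(2, ℤ))
      = mapGL ℝ (κ x : SL(2, ℤ)) * ModularForm.heckeMatrix q (σ x).val) :
    cohU N q hqN A φ (Additive.ofMul γ) = ∑ x, φ (Additive.ofMul (κ x)) :=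
  (rewritingU N q hqN).transfer_apply_of_rewriting φ γ σ κ e

/-- Existence form of the apply formula for `cohU`. -/
theorem cohU_apply_exists [NeZero N] {q : ℕ} [NeZero q] (hqN : q ∣ N) (γ : Gamma0 N) :
    ∃ (σ : Equiv.Perm (ZMod q)) (κ : ZMod q → Gamma0 N),
      (∀ x : ZMod q, ModularForm.heckeMatrix q x.val * mapGL ℝ (γ : SL(2, ℤ))
        = mapGL ℝ (κ x : SL(2, ℤ)) * ModularForm.heckeMatrix q (σ x).val) ∧
      ∀ (A : Type*) [AddCommGroup A] (φ : Additive (Gamma0 N) →+ A),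
        cohU N q hqN A φ (Additive.ofMul γ) = ∑ x, φ (Additive.ofMul (κ x)) :=
  ⟨(rewritingU N q hqN).perm γ, (rewritingU N q hqN).kap γ,
    fun x => (rewritingU N q hqN).spec γ x, fun _ _ _ => rfl⟩

/-- Naturality of `cohT` in the coefficients. -/
theorem cohT_comp {ℓ : ℕ} (hℓ : ℓ.Prime) (hℓN : ¬ ℓ ∣ N) (ψ : A →+ B)
    (φ : Additive (Gamma0 N) →+ A) :
    cohT N ℓ hℓ hℓN B (ψ.comp φ) = ψ.comp (cohT N ℓ hℓ hℓN A φ) :=
  haveI : Fact ℓ.Prime := ⟨hℓ⟩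
  haveI : NeZero ℓ := ⟨hℓ.ne_zero⟩
  (rewritingT N ℓ hℓN).transfer_comp ψ φ

/-- Naturality of `cohU` in the coefficients. -/
theorem cohU_comp [NeZero N] {q : ℕ} (hqN : q ∣ N) (ψ : A →+ B)
    (φ : Additive (Gamma0 N) →+ A) :
    cohU N q hqN B (ψ.comp φ) = ψ.comp (cohU N q hqN A φ) :=
  haveI : NeZero q := ⟨fun h => NeZero.ne N (Nat.eq_zero_of_zero_dvd (h ▸ hqN))⟩
  (rewritingU N q hqN).transfer_comp ψ φ

theorem cohT_smul {R : Type*} [Semiring R] [Module R A] {ℓ : ℕ} (hℓ : ℓ.Prime) (hℓN : ¬ ℓ ∣ N)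
    (r : R) (φ : Additive (Gamma0 N) →+ A) :
    cohT N ℓ hℓ hℓN A (r • φ) = r • cohT N ℓ hℓ hℓN A φ :=
  haveI : Fact ℓ.Prime := ⟨hℓ⟩
  haveI : NeZero ℓ := ⟨hℓ.ne_zero⟩
  (rewritingT N ℓ hℓN).transfer_smul r φ

theorem cohU_smul [NeZero N] {R : Type*} [Semiring R] [Module R A] {q : ℕ} (hqN : q ∣ N)
    (r : R) (φ : Additive (Gamma0 N) →+ A) :
    cohU N q hqN A (r • φ) = r • cohU N q hqN A φ :=
  haveI : NeZero q := ⟨fun h => NeZero.ne N (Nat.eq_zero_of_zero_dvd (h ▸ hqN))⟩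
  (rewritingU N q hqN).transfer_smul r φ

/-- `cohT` as a linear map. -/
noncomputable def cohTL (N : ℕ) (ℓ : ℕ) (hℓ : ℓ.Prime) (hℓN : ¬ ℓ ∣ N) (R : Type*) [Semiring R]
    (A : Type*) [AddCommGroup A] [Module R A] :
    (Additive (Gamma0 N) →+ A) →ₗ[R] (Additive (Gamma0 N) →+ A) where
  toFun := cohT N ℓ hℓ hℓN A
  map_add' := map_add _
  map_smul' r φ := cohT_smul hℓ hℓN r φ

/-- `cohU` as a linear map. -/
noncomputable def cohUL (N : ℕ) [NeZero N] (q : ℕ) (hqN : q ∣ N) (R : Type*) [Semiring R]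
    (A : Type*) [AddCommGroup A] [Module R A] :
    (Additive (Gamma0 N) →+ A) →ₗ[R] (Additive (Gamma0 N) →+ A) where
  toFun := cohU N q hqN A
  map_add' := map_add _
  map_smul' r φ := cohU_smul hqN r φ

@[simp] theorem cohTL_apply {R : Type*} [Semiring R] [Module R A] {ℓ : ℕ} (hℓ : ℓ.Prime)
    (hℓN : ¬ ℓ ∣ N) (φ : Additive (Gamma0 N) →+ A) :
    cohTL N ℓ hℓ hℓN R A φ = cohT N ℓ hℓ hℓN A φ := rfl

@[simp] theorem cohUL_apply [NeZero N] {R : Type*} [Semiring R] [Module R A] {q : ℕ}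
    (hqN : q ∣ N) (φ : Additive (Gamma0 N) →+ A) :
    cohUL N q hqN R A φ = cohU N q hqN A φ := rfl

end basic

section kills

variable {N : ℕ} {A : Type*} [AddCommGroup A]

/-- Generic preservation statement for the transfers attached to families of matrices. -/
theorem transfer_isParabolicHom {X : Type*} [Fintype X] {α : X → GL (Fin 2) ℝ}
    (h : Rewriting (gamma0ToGL N) α) (φ : Additive (Gamma0 N) →+ A)
    (hφ : IsParabolicHom (Gamma0 N) φ) : IsParabolicHom (Gamma0 N) (h.transfer A φ) := by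
  intro γ hγ
  refine h.transfer_kills
    (fun γ : Gamma0 N => ((γ : SL(2, ℤ)) : Matrix (Fin 2) (Fin 2) ℤ).trace ^ 2 = 4)
    ?_ ?_ φ (fun γ hγ => hφ γ hγ) γ hγ
  · intro γ hγ k _
    have := sl_trace_pow_sq (γ : SL(2, ℤ)) hγ k
    simpa using this
  · intro γ hγ x κ e
    have := sl_trace_eq_of_conj (α x) (γ : SL(2, ℤ)) (κ : SL(2, ℤ)) e
    show ((κ : SL(2, ℤ)) : Matrix (Fin 2) (Fin 2) ℤ).trace ^ 2 = 4
    rw [this]
    exact hγ

/-- Generic preservation statement: killing the elements of finite order. -/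
theorem transfer_kills_finOrder {X : Type*} [Fintype X] {α : X → GL (Fin 2) ℝ}
    (h : Rewriting (gamma0ToGL N) α) (φ : Additive (Gamma0 N) →+ A)
    (hφ : ∀ γ : Gamma0 N, IsOfFinOrder γ → φ (Additive.ofMul γ) = 0)
    (γ : Gamma0 N) (hγ : IsOfFinOrder γ) : h.transfer A φ (Additive.ofMul γ) = 0 := by
  refine h.transfer_kills (fun γ : Gamma0 N => IsOfFinOrder γ) ?_ ?_ φ hφ γ hγ
  · intro γ hγ k _
    exact hγ.pow
  · intro γ hγ x κ e
    have h1 : gamma0ToGL N κ = α x * gamma0ToGL N γ * (α x)⁻¹ := by rw [e]; group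
    have h2 : IsOfFinOrder (gamma0ToGL N γ) := (gamma0ToGL N).isOfFinOrder hγ
    have h3 : IsOfFinOrder (α x * gamma0ToGL N γ * (α x)⁻¹) :=
      (isConj_iff.mpr ⟨α x, rfl⟩ : IsConj (gamma0ToGL N γ) _).isOfFinOrder h2
    rw [← h1] at h3
    exact (gamma0ToGL_injective N).isOfFinOrder_iff.mp h3

theorem cohT_isParabolicHom {ℓ : ℕ} (hℓ : ℓ.Prime) (hℓN : ¬ ℓ ∣ N)
    (φ : Additive (Gamma0 N) →+ A) (hφ : IsParabolicHom (Gamma0 N) φ) :
    IsParabolicHom (Gamma0 N) (cohT N ℓ hℓ hℓN A φ) :=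
  haveI : Fact ℓ.Prime := ⟨hℓ⟩
  haveI : NeZero ℓ := ⟨hℓ.ne_zero⟩
  transfer_isParabolicHom (rewritingT N ℓ hℓN) φ hφ

theorem cohU_isParabolicHom [NeZero N] {q : ℕ} (hqN : q ∣ N)
    (φ : Additive (Gamma0 N) →+ A) (hφ : IsParabolicHom (Gamma0 N) φ) :
    IsParabolicHom (Gamma0 N) (cohU N q hqN A φ) :=
  haveI : NeZero q := ⟨fun h => NeZero.ne N (Nat.eq_zero_of_zero_dvd (h ▸ hqN))⟩
  transfer_isParabolicHom (rewritingU N q hqN) φ hφ

theorem cohT_kills_finOrder {ℓ : ℕ} (hℓ : ℓ.Prime) (hℓN : ¬ ℓ ∣ N)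
    (φ : Additive (Gamma0 N) →+ A)
    (hφ : ∀ γ : Gamma0 N, IsOfFinOrder γ → φ (Additive.ofMul γ) = 0)
    (γ : Gamma0 N) (hγ : IsOfFinOrder γ) : cohT N ℓ hℓ hℓN A φ (Additive.ofMul γ) = 0 :=
  haveI : Fact ℓ.Prime := ⟨hℓ⟩
  haveI : NeZero ℓ := ⟨hℓ.ne_zero⟩
  transfer_kills_finOrder (rewritingT N ℓ hℓN) φ hφ γ hγ

theorem cohU_kills_finOrder [NeZero N] {q : ℕ} (hqN : q ∣ N)
    (φ : Additive (Gamma0 N) →+ A)
    (hφ : ∀ γ : Gamma0 N, IsOfFinOrder γ → φ (Additive.ofMul γ) = 0)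
    (γ : Gamma0 N) (hγ : IsOfFinOrder γ) : cohU N q hqN A φ (Additive.ofMul γ) = 0 :=
  haveI : NeZero q := ⟨fun h => NeZero.ne N (Nat.eq_zero_of_zero_dvd (h ▸ hqN))⟩
  transfer_kills_finOrder (rewritingU N q hqN) φ hφ γ hγ

/-- `cohT` preserves the submodule of parabolic homomorphisms. -/
theorem cohT_mem_parabolicHoms {R : Type*} [Semiring R] [Module R A] {ℓ : ℕ} (hℓ : ℓ.Prime)
    (hℓN : ¬ ℓ ∣ N) {φ : Additive (Gamma0 N) →+ A} (hφ : φ ∈ parabolicHoms R (Gamma0 N) A) :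
    cohT N ℓ hℓ hℓN A φ ∈ parabolicHoms R (Gamma0 N) A :=
  cohT_isParabolicHom hℓ hℓN φ hφ

/-- `cohU` preserves the submodule of parabolic homomorphisms. -/
theorem cohU_mem_parabolicHoms [NeZero N] {R : Type*} [Semiring R] [Module R A] {q : ℕ}
    (hqN : q ∣ N) {φ : Additive (Gamma0 N) →+ A} (hφ : φ ∈ parabolicHoms R (Gamma0 N) A) :
    cohU N q hqN A φ ∈ parabolicHoms R (Gamma0 N) A :=
  cohU_isParabolicHom hqN φ hφ

end kills

end Fermat.Agent.H21
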