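import Mathlib

/-!
# Cohomological Hecke operators by transfer: the generic core

Let `ι : Γ →* G` be an injective group homomorphism and `α : X → G` a finite family of elements
of `G` such that

* (rewriting) for all `γ : Γ`, `x : X` there are `y : X`, `κ : Γ` with `α x * ι γ = ι κ * α y`;
* (separation) `α x = ι κ * α y` forces `x = y`.

Then for every additive commutative group `A` there is an endomorphism `transfer` of
`Additive Γ →+ A`, with `(transfer φ) γ = ∑ x, φ (κ_x)`.  We prove additivity, naturality in `A`,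
the apply formula for an arbitrary rewriting, and the preservation of vanishing conditions
(cycle argument, valid for torsion coefficients).
-/

set_option autoImplicit false

namespace Fermat.Agent.H21

open Finset

/-- Rewriting data for a finite family `α` with respect to `ι : Γ →* G`. -/
structure Rewriting {G Γ X : Type*} [Group G] [Group Γ] (ι : Γ →* G) (α : X → G) : Prop where
  inj : Function.Injective ι
  rw : ∀ (γ : Γ) (x : X), ∃ (y : X) (κ : Γ), α x * ι γ = ι κ * α y
  sep : ∀ (x y : X) (κ : Γ), α x = ι κ * α y → x = y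

namespace Rewriting

variable {G Γ X : Type*} [Group G] [Group Γ] {ι : Γ →* G} {α : X → G}

theorem unique (h : Rewriting ι α) {g : G} {y y' : X} {κ κ' : Γ}
    (e : g = ι κ * α y) (e' : g = ι κ' * α y') : y = y' ∧ κ = κ' := by
  have h1 : α y = ι (κ⁻¹ * κ') * α y' := by
    rw [map_mul, map_inv, mul_assoc, ← e', e, inv_mul_cancel_left]
  have hy : y = y' := h.sep y y' _ h1
  subst hy
  refine ⟨rfl, h.inj ?_⟩
  exact mul_right_cancel (e.symm.trans e')

/-- The target index of the rewriting of `α x * ι γ`. -/
noncomputable def tgt (h : Rewriting ι α) (γ : Γ) (x : X) : X := (h.rw γ x).choose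

/-- The `Γ`-part of the rewriting of `α x * ι γ`. -/
noncomputable def kap (h : Rewriting ι α) (γ : Γ) (x : X) : Γ := (h.rw γ x).choose_spec.choose

theorem spec (h : Rewriting ι α) (γ : Γ) (x : X) :
    α x * ι γ = ι (h.kap γ x) * α (h.tgt γ x) :=
  (h.rw γ x).choose_spec.choose_spec

theorem tgt_eq (h : Rewriting ι α) {γ : Γ} {x y : X} {κ : Γ} (e : α x * ι γ = ι κ * α y) :
    h.tgt γ x = y :=
  (h.unique (h.spec γ x) e).1

theorem kap_eq (h : Rewriting ι α) {γ : Γ} {x y : X} {κ : Γ} (e : α x * ι γ = ι κ * α y) :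
    h.kap γ x = κ :=
  (h.unique (h.spec γ x) e).2

@[simp] theorem tgt_one (h : Rewriting ι α) (x : X) : h.tgt 1 x = x :=
  h.tgt_eq (κ := 1) (by simp)

@[simp] theorem kap_one (h : Rewriting ι α) (x : X) : h.kap 1 x = 1 :=
  h.kap_eq (y := x) (by simp)

theorem spec_mul (h : Rewriting ι α) (γ γ' : Γ) (x : X) :
    α x * ι (γ * γ') = ι (h.kap γ x * h.kap γ' (h.tgt γ x)) * α (h.tgt γ' (h.tgt γ x)) := by
  rw [map_mul, ← mul_assoc, h.spec γ x, mul_assoc, h.spec γ' (h.tgt γ x), ← mul_assoc, map_mul]

theorem tgt_mul (h : Rewriting ι α) (γ γ' : Γ) (x : X) :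
    h.tgt (γ * γ') x = h.tgt γ' (h.tgt γ x) :=
  h.tgt_eq (h.spec_mul γ γ' x)

theorem kap_mul (h : Rewriting ι α) (γ γ' : Γ) (x : X) :
    h.kap (γ * γ') x = h.kap γ x * h.kap γ' (h.tgt γ x) :=
  h.kap_eq (h.spec_mul γ γ' x)

/-- The permutation of the index set induced by `γ`. -/
noncomputable def perm (h : Rewriting ι α) (γ : Γ) : Equiv.Perm X where
  toFun := h.tgt γ
  invFun := h.tgt γ⁻¹
  left_inv x := by rw [← h.tgt_mul, mul_inv_cancel, h.tgt_one]
  right_inv x := by rw [← h.tgt_mul, inv_mul_cancel, h.tgt_one]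

@[simp] theorem perm_apply (h : Rewriting ι α) (γ : Γ) (x : X) : h.perm γ x = h.tgt γ x := rfl

theorem perm_eq (h : Rewriting ι α) {γ : Γ} {x y : X} {κ : Γ} (e : α x * ι γ = ι κ * α y) :
    h.perm γ x = y :=
  h.tgt_eq e

theorem perm_mul (h : Rewriting ι α) (γ γ' : Γ) : h.perm (γ * γ') = h.perm γ' * h.perm γ := by
  ext x
  simp [h.tgt_mul]

@[simp] theorem perm_one (h : Rewriting ι α) : h.perm 1 = 1 := by
  ext x
  simp

theorem perm_pow (h : Rewriting ι α) (γ : Γ) (k : ℕ) : h.perm (γ ^ k) = h.perm γ ^ k := by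
  induction k with
  | zero => simp
  | succ k ih => rw [pow_succ, h.perm_mul, ih, pow_succ']

theorem tgt_pow (h : Rewriting ι α) (γ : Γ) (k : ℕ) (x : X) :
    h.tgt (γ ^ k) x = (h.perm γ ^ k) x := by
  rw [← h.perm_pow, perm_apply]

section transfer

variable [Fintype X] {A B : Type*} [AddCommGroup A] [AddCommGroup B]

/-- The value of the transfer of `φ` at `γ`. -/
noncomputable def transferFun (h : Rewriting ι α) (φ : Additive Γ →+ A) (γ : Γ) : A :=
  ∑ x, φ (Additive.ofMul (h.kap γ x))

theorem transferFun_one (h : Rewriting ι α) (φ : Additive Γ →+ A) : h.transferFun φ 1 = 0 := by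
  simp [transferFun]

theorem transferFun_mul (h : Rewriting ι α) (φ : Additive Γ →+ A) (γ γ' : Γ) :
    h.transferFun φ (γ * γ') = h.transferFun φ γ + h.transferFun φ γ' := by
  simp only [transferFun, h.kap_mul, ofMul_mul, map_add, sum_add_distrib]
  congr 1
  exact Equiv.sum_comp (h.perm γ) (fun y => φ (Additive.ofMul (h.kap γ' y)))

/-- The transfer of a homomorphism. -/
noncomputable def transferHom (h : Rewriting ι α) (φ : Additive Γ →+ A) : Additive Γ →+ A where
  toFun γ := h.transferFun φ (Additive.toMul γ)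
  map_zero' := h.transferFun_one φ
  map_add' γ γ' := h.transferFun_mul φ (Additive.toMul γ) (Additive.toMul γ')

/-- The transfer (cohomological Hecke operator) attached to rewriting data. -/
noncomputable def transfer (h : Rewriting ι α) (A : Type*) [AddCommGroup A] :
    (Additive Γ →+ A) →+ (Additive Γ →+ A) where
  toFun := h.transferHom
  map_zero' := by
    ext γ
    simp [transferHom, transferFun]
  map_add' φ ψ := by
    ext γ
    simp [transferHom, transferFun, sum_add_distrib]

theorem transfer_apply (h : Rewriting ι α) (φ : Additive Γ →+ A) (γ : Γ) :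
    h.transfer A φ (Additive.ofMul γ) = ∑ x, φ (Additive.ofMul (h.kap γ x)) := rfl

/-- The apply formula for an arbitrary rewriting of `γ`. -/
theorem transfer_apply_of_rewriting (h : Rewriting ι α) (φ : Additive Γ →+ A) (γ : Γ)
    (σ : X → X) (κ : X → Γ) (e : ∀ x, α x * ι γ = ι (κ x) * α (σ x)) :
    h.transfer A φ (Additive.ofMul γ) = ∑ x, φ (Additive.ofMul (κ x)) := by
  rw [transfer_apply]
  exact sum_congr rfl fun x _ => by rw [h.kap_eq (e x)]

/-- Naturality of the transfer in the coefficient group. -/
theorem transfer_comp (h : Rewriting ι α) (ψ : A →+ B) (φ : Additive Γ →+ A) :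
    h.transfer B (ψ.comp φ) = ψ.comp (h.transfer A φ) := by
  ext γ
  simp [transfer, transferHom, transferFun]

theorem transfer_zsmul (h : Rewriting ι α) (n : ℤ) (φ : Additive Γ →+ A) :
    h.transfer A (n • φ) = n • h.transfer A φ :=
  map_zsmul _ _ _

theorem transfer_smul {R : Type*} [Semiring R] [Module R A] (h : Rewriting ι α) (r : R)
    (φ : Additive Γ →+ A) : h.transfer A (r • φ) = r • h.transfer A φ := by
  ext γ
  simp [transfer, transferHom, transferFun, smul_sum]

/-- The transfer as a linear map. -/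
noncomputable def transferL (h : Rewriting ι α) (R : Type*) [Semiring R] (A : Type*)
    [AddCommGroup A] [Module R A] : (Additive Γ →+ A) →ₗ[R] (Additive Γ →+ A) where
  toFun := h.transfer A
  map_add' := map_add _
  map_smul' r φ := h.transfer_smul r φ

@[simp] theorem transferL_apply {R : Type*} [Semiring R] [Module R A] (h : Rewriting ι α)
    (φ : Additive Γ →+ A) : h.transferL R A φ = h.transfer A φ := rfl

end transfer

end Rewriting

end Fermat.Agent.H21
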