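import Fermat.Agent.H21.Coh.Core

/-!
# The cycle argument for transfers

If `φ` kills all elements of `Γ` having a property `P` which is stable under positive powers and
under "conjugation by the `α x`", then so does the transfer of `φ`.  This holds for arbitrary
(in particular torsion) coefficient groups.
-/

set_option autoImplicit false

namespace Fermat.Agent.H21

open Finset

/-- A sum over a finite type vanishes if all the sums over (multiples of) the cycles of a
permutation vanish. -/
theorem sum_eq_zero_of_cycle_sums {X A : Type*} [Fintype X] [AddCommGroup A]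
    (σ : Equiv.Perm X) (f : X → A)
    (h : ∀ x k, 0 < k → (σ ^ k) x = x → ∑ i ∈ range k, f ((σ ^ i) x) = 0) :
    ∑ x, f x = 0 := by
  classical
  refine Finset.sum_cancels_of_partition_cancels (Equiv.Perm.SameCycle.setoid σ) ?_
  intro x _
  set k := Function.minimalPeriod σ x with hk
  have hkpos : 0 < k :=
    Function.minimalPeriod_pos_of_mem_periodicPts (σ.injective.mem_periodicPts x)
  have hkx : (σ ^ k) x = x := by
    rw [← Equiv.Perm.iterate_eq_pow]
    exact Function.iterate_minimalPeriod
  have hset : (univ.filter fun a => (Equiv.Perm.SameCycle.setoid σ) a x)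
      = (range k).image fun i => (σ ^ i) x := by
    ext a
    simp only [mem_filter, mem_univ, true_and, mem_image, mem_range]
    constructor
    · intro ha
      have ha' : Equiv.Perm.SameCycle σ x a := Equiv.Perm.SameCycle.symm ha
      obtain ⟨i, hi⟩ := ha'.exists_nat_pow_eq
      refine ⟨i % k, Nat.mod_lt _ hkpos, ?_⟩
      rw [← hi, ← Equiv.Perm.iterate_eq_pow, ← Equiv.Perm.iterate_eq_pow]
      exact Function.iterate_mod_minimalPeriod_eq
    · rintro ⟨i, -, rfl⟩
      exact Equiv.Perm.SameCycle.symm ⟨(i : ℤ), by simp⟩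
  rw [hset, sum_image]
  · exact h x k hkpos hkx
  · intro i hi j hj hij
    have := Function.iterate_injOn_Iio_minimalPeriod (f := σ) (x := x)
    refine this (by simpa using hi) (by simpa using hj) ?_
    simpa [Equiv.Perm.iterate_eq_pow] using hij

namespace Rewriting

variable {G Γ X : Type*} [Group G] [Group Γ] {ι : Γ →* G} {α : X → G}
variable {A : Type*} [AddCommGroup A]

theorem map_kap_pow (h : Rewriting ι α) (φ : Additive Γ →+ A) (γ : Γ) (k : ℕ) (x : X) :
    φ (Additive.ofMul (h.kap (γ ^ k) x))
      = ∑ i ∈ range k, φ (Additive.ofMul (h.kap γ ((h.perm γ ^ i) x))) := by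
  induction k with
  | zero => simp
  | succ k ih =>
    rw [pow_succ, h.kap_mul, ofMul_mul, map_add, ih, sum_range_succ, h.tgt_pow]

/-- The cycle argument: the transfer preserves the vanishing on a class of elements stable
under positive powers and under conjugation by the `α x`. -/
theorem transfer_kills [Fintype X] (h : Rewriting ι α) (P : Γ → Prop)
    (hpow : ∀ γ, P γ → ∀ k : ℕ, 0 < k → P (γ ^ k))
    (hconj : ∀ γ, P γ → ∀ (x : X) (κ : Γ), α x * ι γ = ι κ * α x → P κ)
    (φ : Additive Γ →+ A) (hφ : ∀ γ, P γ → φ (Additive.ofMul γ) = 0)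
    (γ : Γ) (hγ : P γ) : h.transfer A φ (Additive.ofMul γ) = 0 := by
  rw [transfer_apply]
  refine sum_eq_zero_of_cycle_sums (h.perm γ) _ fun x k hk hx => ?_
  rw [← h.map_kap_pow φ γ k x]
  refine hφ _ (hconj (γ ^ k) (hpow γ hγ k hk) x _ ?_)
  have := h.spec (γ ^ k) x
  rwa [h.tgt_pow, hx] at this

end Rewriting

end Fermat.Agent.H21
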