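import Fermat.Agent.H21.Coh.Cycle
import Fermat.Prelude.Def_ModularCurve_PeriodHomPair
import Fermat.Prelude.Sol.S_ModularForm_heckeT_slash_eq_self_of_mem_Gamma0

/-!
# Cohomological Hecke operators `cohT`, `cohU` on `Additive (Gamma0 N) →+ A`

The transfer construction of `Fermat.Agent.H21.Coh.Core` applied to the prelude's coset
representatives `heckeRep ℓ` (for `T_ℓ`, `ℓ ∤ N`) and `heckeMatrix q j` (for `U_q`, `q ∣ N`).
-/

set_option autoImplicit false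

open CongruenceSubgroup Matrix.SpecialLinearGroup
open scoped MatrixGroups OnePoint
open P2MW.S_ModularForm_heckeT_slash_eq_self_of_mem_Gamma0.ModularForm.HeckeSlashInvariance

namespace Fermat.Agent.H21

/-- The inclusion of `Γ₀(N)` into `GL₂(ℝ)`. -/
noncomputable def gamma0ToGL (N : ℕ) : Gamma0 N →* GL (Fin 2) ℝ :=
  (mapGL ℝ).comp (Gamma0 N).subtype

@[simp] theorem gamma0ToGL_apply (N : ℕ) (γ : Gamma0 N) :
    gamma0ToGL N γ = mapGL ℝ (γ : SL(2, ℤ)) := rfl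

theorem gamma0ToGL_injective (N : ℕ) : Function.Injective (gamma0ToGL N) :=
  (mapGL_injective (R := ℤ) (S := ℝ)).comp (Subgroup.subtype_injective _)

/-- Entries of `mapGL ℝ κ * u` for an upper triangular matrix `u`. -/
theorem mapGL_mul_upper_apply (κ : SL(2, ℤ)) (u : GL (Fin 2) ℝ) (a b d : ℝ)
    (hu : (u : Matrix (Fin 2) (Fin 2) ℝ) = !![a, b; 0, d]) :
    ((mapGL ℝ κ * u : GL (Fin 2) ℝ) : Matrix (Fin 2) (Fin 2) ℝ)
      = !![(κ 0 0 : ℝ) * a, (κ 0 0 : ℝ) * b + (κ 0 1 : ℝ) * d;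
           (κ 1 0 : ℝ) * a, (κ 1 0 : ℝ) * b + (κ 1 1 : ℝ) * d] := by
  rw [Matrix.GeneralLinearGroup.coe_mul, hu]
  ext i j
  fin_cases i <;> fin_cases j <;> simp [Matrix.mul_apply, Fin.sum_univ_two]

theorem heckeMatrix_sep {p : ℕ} [NeZero p] (x y : ZMod p) (κ : SL(2, ℤ))
    (e : ModularForm.heckeMatrix p x.val = mapGL ℝ κ * ModularForm.heckeMatrix p y.val) :
    x = y := by
  have hp : p ≠ 0 := NeZero.ne p
  have e' : ((_ : GL (Fin 2) ℝ) : Matrix (Fin 2) (Fin 2) ℝ) = _ := congrArg Units.val e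
  rw [mapGL_mul_upper_apply κ _ 1 y.val p (ModularForm.val_heckeMatrix hp _),
    ModularForm.val_heckeMatrix hp] at e'
  have h00 : (1 : ℝ) = (κ 0 0 : ℝ) * 1 := by
    have := congrFun (congrFun e' 0) 0
    simpa using this
  have h01 : ((x.val : ℕ) : ℝ) = (κ 0 0 : ℝ) * ((y.val : ℕ) : ℝ) + (κ 0 1 : ℝ) * p := by
    have := congrFun (congrFun e' 0) 1
    simpa [-ZMod.natCast_val] using this
  rw [mul_one] at h00
  rw [← h00, one_mul] at h01
  have h01' : ((x.val : ℕ) : ℤ) = ((y.val : ℕ) : ℤ) + κ 0 1 * p := by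
    have : (((x.val : ℕ) : ℤ) : ℝ) = ((((y.val : ℕ) : ℤ) + κ 0 1 * p : ℤ) : ℝ) := by
      push_cast
      exact h01
    exact_mod_cast this
  have := congrArg (Int.cast : ℤ → ZMod p) h01'
  push_cast at this
  simpa using this

theorem heckeDiag_ne_mul_heckeMatrix {p : ℕ} (hp : p.Prime) (j : ℕ) (κ : SL(2, ℤ)) :
    ModularForm.heckeDiagMatrix p ≠ mapGL ℝ κ * ModularForm.heckeMatrix p j := by
  intro e
  have hp0 : p ≠ 0 := hp.ne_zero
  have e' : ((_ : GL (Fin 2) ℝ) : Matrix (Fin 2) (Fin 2) ℝ) = _ := congrArg Units.val e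
  rw [mapGL_mul_upper_apply κ _ 1 j p (ModularForm.val_heckeMatrix hp0 _),
    ModularForm.val_heckeDiagMatrix hp0] at e'
  have h10 := congrFun (congrFun e' 1) 0
  have h11 := congrFun (congrFun e' 1) 1
  simp at h10 h11
  rw [← h10, zero_mul, zero_add] at h11
  have h11' : (1 : ℤ) = κ 1 1 * p := by exact_mod_cast h11
  have hdvd : (p : ℤ) ∣ 1 := ⟨κ 1 1, by linarith⟩
  have := Int.natCast_dvd_natCast.mp (by simpa using hdvd : ((p : ℕ) : ℤ) ∣ ((1 : ℕ) : ℤ))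
  exact hp.one_lt.ne' (Nat.dvd_one.mp this)

theorem heckeMatrix_ne_mul_heckeDiag {p : ℕ} (hp : p.Prime) (j : ℕ) (κ : SL(2, ℤ)) :
    ModularForm.heckeMatrix p j ≠ mapGL ℝ κ * ModularForm.heckeDiagMatrix p := by
  intro e
  have hp0 : p ≠ 0 := hp.ne_zero
  have e' : ((_ : GL (Fin 2) ℝ) : Matrix (Fin 2) (Fin 2) ℝ) = _ := congrArg Units.val e
  rw [mapGL_mul_upper_apply κ _ p 0 1 (ModularForm.val_heckeDiagMatrix hp0),
    ModularForm.val_heckeMatrix hp0] at e'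
  have h00 := congrFun (congrFun e' 0) 0
  simp at h00
  have h00' : (1 : ℤ) = κ 0 0 * p := by exact_mod_cast h00
  have hdvd : (p : ℤ) ∣ 1 := ⟨κ 0 0, by linarith⟩
  have := Int.natCast_dvd_natCast.mp (by simpa using hdvd : ((p : ℕ) : ℤ) ∣ ((1 : ℕ) : ℤ))
  exact hp.one_lt.ne' (Nat.dvd_one.mp this)

theorem heckeRep_sep {p : ℕ} [Fact p.Prime] (x y : OnePoint (ZMod p)) (κ : SL(2, ℤ))
    (e : heckeRep p x = mapGL ℝ κ * heckeRep p y) : x = y := by
  have hp : p.Prime := Fact.out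
  induction x using OnePoint.rec with
  | infty =>
    induction y using OnePoint.rec with
    | infty => rfl
    | coe j => exact absurd e (heckeDiag_ne_mul_heckeMatrix hp _ κ)
  | coe i =>
    induction y using OnePoint.rec with
    | infty => exact absurd e (heckeMatrix_ne_mul_heckeDiag hp _ κ)
    | coe j =>
      rw [heckeRep_coe, heckeRep_coe] at e
      rw [heckeMatrix_sep i j κ e]

/-- The rewriting data for `T_ℓ`, `ℓ ∤ N`. -/
theorem rewritingT (N ℓ : ℕ) [Fact ℓ.Prime] (hℓN : ¬ ℓ ∣ N) :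
    Rewriting (gamma0ToGL N) (heckeRep ℓ) where
  inj := gamma0ToGL_injective N
  rw γ x := by
    have hcN : (N : ℤ) ∣ (γ : SL(2, ℤ)) 1 0 :=
      (ZMod.intCast_zmod_eq_zero_iff_dvd _ _).mp (Gamma0_mem.mp γ.2)
    obtain ⟨κ, hκ, hmul⟩ := heckeRep_mul hℓN (γ : SL(2, ℤ)) hcN x
    exact ⟨_, ⟨κ, Gamma0_mem.mpr ((ZMod.intCast_zmod_eq_zero_iff_dvd _ _).mpr hκ)⟩, hmul⟩
  sep x y κ e := heckeRep_sep x y (κ : SL(2, ℤ)) e

/-- The rewriting data for `U_q`, `q ∣ N`. -/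
theorem rewritingU (N q : ℕ) [NeZero q] (hqN : q ∣ N) :
    Rewriting (gamma0ToGL N) (fun x : ZMod q => ModularForm.heckeMatrix q x.val) where
  inj := gamma0ToGL_injective N
  rw γ x := by
    have hcN : (N : ℤ) ∣ (γ : SL(2, ℤ)) 1 0 :=
      (ZMod.intCast_zmod_eq_zero_iff_dvd _ _).mp (Gamma0_mem.mp γ.2)
    have hc : (q : ℤ) ∣ (γ : SL(2, ℤ)) 1 0 := (Int.natCast_dvd_natCast.mpr hqN).trans hcN
    obtain ⟨κ, hκ, hmul⟩ := heckeMatrix_mul_of_dvd (γ : SL(2, ℤ)) hc x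
    refine ⟨_, ⟨κ, ?_⟩, hmul⟩
    rw [Gamma0_mem, hκ]
    push_cast
    rw [Gamma0_mem.mp γ.2, mul_zero]
  sep x y κ e := heckeMatrix_sep x y (κ : SL(2, ℤ)) e

end Fermat.Agent.H21
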