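import Fermat.Agent.H21.Coh.Gamma0

/-!
# Trace lemmas for `SL(2, ℤ)`: powers and conjugation preserve `trace ^ 2 = 4`
-/

set_option autoImplicit false

open CongruenceSubgroup Matrix.SpecialLinearGroup
open scoped MatrixGroups

namespace Fermat.Agent.H21

theorem mat_mul_self_of_det_one (M : Matrix (Fin 2) (Fin 2) ℤ) (hdet : M.det = 1) :
    M * M = M.trace • M - 1 := by
  rw [Matrix.det_fin_two] at hdet
  ext i j
  fin_cases i <;> fin_cases j <;>
    simp only [Matrix.mul_apply, Fin.sum_univ_two, Matrix.trace_fin_two, Matrix.sub_apply,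
      Matrix.smul_apply, smul_eq_mul, Matrix.one_apply_eq, Matrix.one_apply_ne, Fin.zero_eta,
      Fin.mk_one, ne_eq, zero_ne_one, one_ne_zero, not_false_eq_true, Fin.isValue, sub_zero] <;>
    first
      | linear_combination -hdet
      | ring

theorem mat_pow_of_trace_two (M : Matrix (Fin 2) (Fin 2) ℤ) (hdet : M.det = 1)
    (ht : M.trace = 2) (k : ℕ) : M ^ k = (k : ℤ) • M - ((k : ℤ) - 1) • 1 := by
  have hsq := mat_mul_self_of_det_one M hdet
  rw [ht] at hsq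
  induction k with
  | zero => simp
  | succ k ih =>
    rw [pow_succ, ih, sub_mul, smul_mul_assoc, smul_mul_assoc, hsq, one_mul]
    push_cast
    module

theorem mat_pow_of_trace_neg_two (M : Matrix (Fin 2) (Fin 2) ℤ) (hdet : M.det = 1)
    (ht : M.trace = -2) (k : ℕ) :
    M ^ k = ((-1) ^ (k + 1) * (k : ℤ)) • M + ((-1) ^ (k + 1) * ((k : ℤ) - 1)) • 1 := by
  have hsq := mat_mul_self_of_det_one M hdet
  rw [ht] at hsq
  induction k with
  | zero => simp
  | succ k ih =>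
    rw [pow_succ, ih, add_mul, smul_mul_assoc, smul_mul_assoc, hsq, one_mul]
    push_cast
    have e : ((-1 : ℤ)) ^ (k + 1 + 1) = - (-1) ^ (k + 1) := by ring
    rw [e]
    module

theorem mat_trace_pow_sq (M : Matrix (Fin 2) (Fin 2) ℤ) (hdet : M.det = 1)
    (ht : M.trace ^ 2 = 4) (k : ℕ) : (M ^ k).trace ^ 2 = 4 := by
  have h2 : M.trace = 2 ∨ M.trace = -2 := by
    have : (M.trace - 2) * (M.trace + 2) = 0 := by linear_combination ht
    rcases mul_eq_zero.mp this with h | h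
    · left; linarith
    · right; linarith
  rcases h2 with h | h
  · rw [mat_pow_of_trace_two M hdet h k, Matrix.trace_sub, Matrix.trace_smul, Matrix.trace_smul,
      h, Matrix.trace_one]
    simp
    ring
  · rw [mat_pow_of_trace_neg_two M hdet h k, Matrix.trace_add, Matrix.trace_smul,
      Matrix.trace_smul, h, Matrix.trace_one]
    simp
    have e : ((-1 : ℤ) ^ (k + 1)) ^ 2 = 1 := by
      rw [← pow_mul, mul_comm, pow_mul]; simp
    linear_combination 4 * e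

theorem sl_trace_pow_sq (g : SL(2, ℤ)) (ht : (g : Matrix (Fin 2) (Fin 2) ℤ).trace ^ 2 = 4)
    (k : ℕ) : ((g ^ k : SL(2, ℤ)) : Matrix (Fin 2) (Fin 2) ℤ).trace ^ 2 = 4 := by
  rw [Matrix.SpecialLinearGroup.coe_pow]
  exact mat_trace_pow_sq _ g.det_coe ht k

theorem trace_mapGL (g : SL(2, ℤ)) :
    ((mapGL ℝ g : GL (Fin 2) ℝ) : Matrix (Fin 2) (Fin 2) ℝ).trace
      = (((g : Matrix (Fin 2) (Fin 2) ℤ).trace : ℤ) : ℝ) := by
  simp [Matrix.trace_fin_two]

/-- Conjugate elements of `SL(2, ℤ)` (conjugate inside `GL₂(ℝ)`) have the same trace. -/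
theorem sl_trace_eq_of_conj (a : GL (Fin 2) ℝ) (g k : SL(2, ℤ))
    (e : a * mapGL ℝ g = mapGL ℝ k * a) :
    (k : Matrix (Fin 2) (Fin 2) ℤ).trace = (g : Matrix (Fin 2) (Fin 2) ℤ).trace := by
  have h1 : mapGL ℝ k = a * mapGL ℝ g * a⁻¹ := by rw [e]; group
  have h2 : ((mapGL ℝ k : GL (Fin 2) ℝ) : Matrix (Fin 2) (Fin 2) ℝ).trace
      = ((a * mapGL ℝ g * a⁻¹ : GL (Fin 2) ℝ) : Matrix (Fin 2) (Fin 2) ℝ).trace := by rw [h1]
  have h3 : ((a * mapGL ℝ g * a⁻¹ : GL (Fin 2) ℝ) : Matrix (Fin 2) (Fin 2) ℝ).trace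
      = ((mapGL ℝ g : GL (Fin 2) ℝ) : Matrix (Fin 2) (Fin 2) ℝ).trace := by
    have := Matrix.trace_units_conj a ((mapGL ℝ g : GL (Fin 2) ℝ) : Matrix (Fin 2) (Fin 2) ℝ)
    rw [← this]
    rfl
  rw [h3, trace_mapGL, trace_mapGL] at h2
  exact_mod_cast h2

end Fermat.Agent.H21
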